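/-
S17 / Part H1, piece B: an index-two closed subgroup of `G_K` is cut out by a square root.
-/
import Mathlib
import Fermat.Agent.S54.FrobB

set_option autoImplicit false

namespace Fermat.Agent.S17.H

open Fermat.Agent.S54

attribute [local instance] isAlgClosure_Qbar

local notation "Qbar" => AlgebraicClosure ℚ

theorem mem_of_fixed (K : IntermediateField ℚ Qbar) (x : Qbar)
    (h : ∀ τ ∈ K.fixingSubgroup, τ x = x) : x ∈ K := by
  have h1 : x ∈ IntermediateField.fixedField K.fixingSubgroup := by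
    rw [IntermediateField.mem_fixedField_iff]
    exact h
  rwa [InfiniteGalois.fixedField_fixingSubgroup] at h1

theorem apply_of_mem_fixingSubgroup (K : IntermediateField ℚ Qbar) {τ : GQ}
    (hτ : τ ∈ K.fixingSubgroup) {x : Qbar} (hx : x ∈ K) : τ x = x :=
  (IntermediateField.mem_fixingSubgroup_iff K τ).mp hτ x hx

theorem exists_sqrt (K : IntermediateField ℚ Qbar) (H : Subgroup GQ)
    (hcl : IsClosed (H : Set GQ)) (σ : GQ) (hσK : σ ∈ K.fixingSubgroup) (hσ : σ ∉ H)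
    (h2 : ∀ τ ∈ K.fixingSubgroup, τ ∉ H → σ⁻¹ * τ ∈ H) :
    ∃ α : Qbar, α ≠ 0 ∧ α ^ 2 ∈ K ∧ σ α = -α ∧ ∀ τ ∈ H, τ ∈ K.fixingSubgroup → τ α = α := by
  -- an element fixed by `H` and moved by `σ`
  have hex : ∃ θ : Qbar, (∀ h ∈ H, h θ = θ) ∧ σ θ ≠ θ := by
    by_contra hcon
    push Not at hcon
    apply hσ
    have h1 : σ ∈ (IntermediateField.fixedField H).fixingSubgroup := by
      rw [IntermediateField.mem_fixingSubgroup_iff]
      intro x hx
      rw [IntermediateField.mem_fixedField_iff] at hx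
      exact hcon x hx
    rwa [InfiniteGalois.fixingSubgroup_fixedField (⟨H, hcl⟩ : ClosedSubgroup GQ)] at h1
  obtain ⟨θ, hθH, hθσ⟩ := hex
  -- `σ²∈ H`
  have hσ2 : σ * σ ∈ H := by
    have h3 : σ⁻¹ ∉ H := fun h => hσ (by simpa using H.inv_mem h)
    have h4 := h2 σ⁻¹ (K.fixingSubgroup.inv_mem hσK) h3
    have h5 := H.inv_mem h4
    simpa using h5
  -- `σ` normalises `H ∩ G_K`
  have hconj : ∀ τ ∈ H, τ ∈ K.fixingSubgroup → σ⁻¹ * τ * σ ∈ H := by
    intro τ hτ hτK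
    have h3 : τ * σ ∉ H := fun h => hσ (by simpa using H.mul_mem (H.inv_mem hτ) h)
    have h4 := h2 (τ * σ) (K.fixingSubgroup.mul_mem hτK hσK) h3
    simpa [mul_assoc] using h4
  have hσα : σ (θ - σ θ) = -(θ - σ θ) := by
    have h3 : σ (σ θ) = θ := hθH _ hσ2
    rw [map_sub, h3]
    ring
  have hHα : ∀ τ ∈ H, τ ∈ K.fixingSubgroup → τ (θ - σ θ) = θ - σ θ := by
    intro τ hτ hτK
    have h3 : (σ⁻¹ * τ * σ) θ = θ := hθH _ (hconj τ hτ hτK)
    have h4 : τ (σ θ) = σ θ := by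
      have h5 : σ ((σ⁻¹ * τ * σ) θ) = τ (σ θ) := by
        show σ (σ⁻¹ (τ (σ θ))) = τ (σ θ)
        exact AlgEquiv.apply_symm_apply σ _
      rw [← h5, h3]
    rw [map_sub, hθH τ hτ, h4]
  refine ⟨θ - σ θ, sub_ne_zero.mpr (Ne.symm hθσ), ?_, hσα, hHα⟩
  apply mem_of_fixed
  intro τ hτK
  by_cases hτ : τ ∈ H
  · rw [map_pow, hHα τ hτ hτK]
  · have h3 := h2 τ hτK hτ
    have h4 := hHα _ h3 (K.fixingSubgroup.mul_mem (K.fixingSubgroup.inv_mem hσK) hτK)
    have h5 : τ (θ - σ θ) = σ (θ - σ θ) := by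
      have h6 : σ ((σ⁻¹ * τ) (θ - σ θ)) = τ (θ - σ θ) := by
        show σ (σ⁻¹ (τ (θ - σ θ))) = τ (θ - σ θ)
        exact AlgEquiv.apply_symm_apply σ _
      rw [← h6, h4]
    rw [map_pow, h5, hσα]
    ring

end Fermat.Agent.S17.H
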