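/-
S17 / Part H2 (Ram): if the valuation of `a = α²  ∈ K` is not a square in the value group of `K`, then
some element of the inertia group of `A` fixing `K` moves `α`.
-/
import Mathlib
import Fermat.Agent.S13.Minkowski
import Fermat.Agent.S17.H.Sqrt

set_option autoImplicit false

open scoped Pointwise

namespace Fermat.Agent.S17.H

open Fermat.Agent.S54 Fermat.Agent.S13

attribute [local instance] isAlgClosure_Qbar zbarAction zbarTop zbar_discrete zbar_continuousSMul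
  zbar_isInvariant

local notation "Qbar" => AlgebraicClosure ℚ

/-- Generalisation of `Fermat.Agent.S13.Minkowski.exists_lift`: `H` need not be normal, it is
enough that `σ₀` normalises it. -/
theorem exists_lift' (H : Subgroup GQ) (hH : IsClosed (H : Set GQ))
    (Q : Ideal Zbar) [Q.IsPrime] (σ₀ : GQ)
    (hn : ∀ h ∈ H, σ₀⁻¹ * h * σ₀ ∈ H) (hn' : ∀ h ∈ H, σ₀ * h * σ₀⁻¹ ∈ H)
    (h0 : ∀ a : Zbar, (∀ h ∈ H, h • a = a) → σ₀ • a - a ∈ Q) :
    ∃ h ∈ H, (h * σ₀) • Q = Q ∧ ∀ b : Zbar, (h * σ₀) • b - b ∈ Q := by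
  have : CompactSpace H := isCompact_iff_compactSpace.mp hH.isCompact
  let A := FixedPoints.subalgebra ℤ Zbar H
  have hcomm : SMulCommClass H A Zbar := ⟨fun h a b => by
    show h • ((a : Zbar) * b) = (a : Zbar) * (h • b)
    rw [smul_mul', a.2 h]⟩
  have hinv : Algebra.IsInvariant A Zbar H := ⟨fun x h ↦ ⟨⟨x, h⟩, rfl⟩⟩
  have hAfix : ∀ a : A, ∀ h ∈ H, h • (a : Zbar) = a := fun a h hh => a.2 ⟨h, hh⟩
  -- `σ₀` and its inverse preserve `A`
  have hnorm : ∀ (g : GQ), (∀ h ∈ H, g⁻¹ * h * g ∈ H) → ∀ (a : Zbar), (∀ h ∈ H, h • a = a) →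
      ∀ h ∈ H, h • (g • a) = g • a := by
    intro g hg a ha h hh
    have h1 : (g⁻¹ * h * g) • a = a := ha _ (hg h hh)
    calc h • (g • a) = g • ((g⁻¹ * h * g) • a) := by
          simp only [← mul_smul]
          congr 1
          group
      _ = g • a := by rw [h1]
  have hn'' : ∀ h ∈ H, (σ₀⁻¹)⁻¹ * h * σ₀⁻¹ ∈ H := by
    intro h hh
    rw [inv_inv]
    exact hn' h hh
  -- Step 1
  have hunder : (σ₀ • Q).under A = Q.under A := by
    ext a
    simp only [Ideal.under, Ideal.mem_comap]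
    show (a : Zbar) ∈ σ₀ • Q ↔ (a : Zbar) ∈ Q
    rw [Ideal.mem_pointwise_smul_iff_inv_smul_mem]
    have h1 := h0 (σ₀⁻¹ • (a : Zbar)) (hnorm σ₀⁻¹ hn'' a (hAfix a))
    rw [smul_inv_smul] at h1
    constructor
    · intro h2
      have := Q.add_mem h1 h2
      simpa using this
    · intro h2
      have := Q.sub_mem h2 h1
      simpa using this
  -- Step 2
  obtain ⟨h₁, hh₁⟩ := Algebra.IsInvariant.exists_smul_of_under_eq_of_profinite (A := A) (G := H)
    (σ₀ • Q) Q hunder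
  have hσ₁ : ((h₁ : GQ) * σ₀) • Q = Q := by
    rw [mul_smul]
    exact hh₁.symm
  have hσ₁A : ∀ a : A, ((h₁ : GQ) * σ₀) • (a : Zbar) - a ∈ Q := by
    intro a
    rw [mul_smul, hnorm σ₀ hn a (hAfix a) h₁ h₁.2]
    exact h0 a (hAfix a)
  -- Step 3
  let P : Ideal A := Q.under A
  have hlies : Q.LiesOver P := ⟨rfl⟩
  let e₀ : (Zbar ⧸ Q) ≃+* (Zbar ⧸ Q) :=
    Ideal.quotientEquiv Q Q (MulSemiringAction.toRingEquiv GQ Zbar ((h₁ : GQ) * σ₀)) (by
      conv_lhs => rw [← hσ₁]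
      rfl)
  let e : (Zbar ⧸ Q) ≃ₐ[A ⧸ P] (Zbar ⧸ Q) := AlgEquiv.ofRingEquiv (f := e₀) (by
    intro r
    obtain ⟨a, rfl⟩ := Ideal.Quotient.mk_surjective r
    show Ideal.Quotient.mk Q (((h₁ : GQ) * σ₀) • (a : Zbar)) = Ideal.Quotient.mk Q (a : Zbar)
    rw [Ideal.Quotient.eq]
    exact hσ₁A a)
  -- Step 4
  obtain ⟨⟨h₂, hh₂⟩, he⟩ := Ideal.Quotient.stabilizerHom_surjective_of_profinite (G := H) P Q e
  have hh₂' : (h₂ : GQ) • Q = Q := hh₂
  have hh₂inv : (h₂ : GQ)⁻¹ • Q = Q := by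
    conv_lhs => rw [← hh₂']
    rw [inv_smul_smul]
  have key : ∀ b : Zbar, ((h₁ : GQ) * σ₀) • b - (h₂ : GQ) • b ∈ Q := by
    intro b
    have h2 := congrArg (fun t => t (Ideal.Quotient.mk Q b)) he
    simp only [Ideal.Quotient.stabilizerHom_apply] at h2
    rw [← Ideal.Quotient.eq]
    exact h2.symm
  refine ⟨(h₂ : GQ)⁻¹ * h₁, H.mul_mem (H.inv_mem h₂.2) h₁.2, ?_, ?_⟩
  · rw [mul_assoc, mul_smul, hσ₁, hh₂inv]
  · intro b
    have h3 : (h₂ : GQ)⁻¹ • (((h₁ : GQ) * σ₀) • b - (h₂ : GQ) • b) ∈ (h₂ : GQ)⁻¹ • Q :=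
      Ideal.smul_mem_pointwise_smul _ _ _ (key b)
    rw [hh₂inv, smul_sub, inv_smul_smul, ← mul_smul, ← mul_assoc] at h3
    exact h3

theorem exists_inertia_moving_sqrt (K : IntermediateField ℚ Qbar) (A : ValuationSubring Qbar)
    (α : Qbar) (hα0 : α ≠ 0) (hαK : α ^ 2 ∈ K)
    (hodd : ∀ y ∈ K, A.valuation (α ^ 2) ≠ A.valuation y ^ 2) :
    ∃ τ ∈ A.inertiaSubgroupIn ℚ, τ ∈ K.fixingSubgroup ∧ τ α = -α := by
  have hαnK : α ∉ K := fun h => hodd α h (map_pow _ _ _)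
  -- every element of `G_K` maps `α` to `± α`
  have hpm : ∀ τ ∈ K.fixingSubgroup, τ α = α ∨ τ α = -α := by
    intro τ hτ
    have h1 : (τ α) ^ 2 = α ^ 2 := by
      rw [← map_pow]
      exact apply_of_mem_fixingSubgroup K hτ hαK
    exact sq_eq_sq_iff_eq_or_eq_neg.mp h1
  obtain ⟨σ₀, hσ₀K, hσ₀α⟩ : ∃ σ₀ ∈ K.fixingSubgroup, σ₀ α = -α := by
    by_contra hcon
    push Not at hcon
    apply hαnK
    apply mem_of_fixed
    intro τ hτ
    rcases hpm τ hτ with h | h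
    · exact h
    · exact absurd h (hcon τ hτ)
  have hσ₀neg : σ₀ (-α) = α := by rw [map_neg, hσ₀α, neg_neg]
  have hσ₀inv : σ₀⁻¹ α = -α := by
    have h1 : σ₀⁻¹ (σ₀ (-α)) = -α := AlgEquiv.symm_apply_apply σ₀ _
    rwa [hσ₀neg] at h1
  have hσ₀invneg : σ₀⁻¹ (-α) = α := by rw [map_neg, hσ₀inv, neg_neg]
  let H : Subgroup GQ := K.fixingSubgroup ⊓ MulAction.stabilizer GQ α
  have hmemH : ∀ τ : GQ, τ ∈ H ↔ τ ∈ K.fixingSubgroup ∧ τ α = α := by
    intro τ
    rw [Subgroup.mem_inf, MulAction.mem_stabilizer_iff]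
    rfl
  have hHcl : IsClosed (H : Set GQ) := by
    have h1 : IsClosed (K.fixingSubgroup : Set GQ) := InfiniteGalois.fixingSubgroup_isClosed K
    have h2 : IsClosed (MulAction.stabilizer GQ α : Set GQ) :=
      Subgroup.isClosed_of_isOpen _ (stabilizer_isOpen_of_isIntegral (K := ℚ) (L := Qbar) α)
    exact h1.inter h2
  have hn : ∀ h ∈ H, σ₀⁻¹ * h * σ₀ ∈ H := by
    intro h hh
    rw [hmemH] at hh ⊢
    refine ⟨K.fixingSubgroup.mul_mem (K.fixingSubgroup.mul_mem (K.fixingSubgroup.inv_mem hσ₀K)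
      hh.1) hσ₀K, ?_⟩
    show σ₀⁻¹ (h (σ₀ α)) = α
    rw [hσ₀α, map_neg, hh.2, hσ₀invneg]
  have hn' : ∀ h ∈ H, σ₀ * h * σ₀⁻¹ ∈ H := by
    intro h hh
    rw [hmemH] at hh ⊢
    refine ⟨K.fixingSubgroup.mul_mem (K.fixingSubgroup.mul_mem hσ₀K hh.1)
      (K.fixingSubgroup.inv_mem hσ₀K), ?_⟩
    show σ₀ (h (σ₀⁻¹ α)) = α
    rw [hσ₀inv, map_neg, hh.2, hσ₀neg]
  have h0 : ∀ a : Zbar, (∀ h ∈ H, h • a = a) → σ₀ • a - a ∈ zbarCenter A := by
    intro a ha
    have ha' : ∀ h ∈ H, h (a : Qbar) = a := fun h hh => congrArg Subtype.val (ha h hh)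
    set a' : Qbar := (a : Qbar) with ha'def
    set s : Qbar := σ₀ a' with hs
    -- action of `G_K` on `a'` and `s`
    have hcase1 : ∀ τ ∈ H, τ a' = a' ∧ τ s = s := by
      intro τ hτ
      refine ⟨ha' τ hτ, ?_⟩
      have h1 : (σ₀⁻¹ * τ * σ₀) a' = a' := ha' _ (hn τ hτ)
      have h2 : σ₀ ((σ₀⁻¹ * τ * σ₀) a') = τ (σ₀ a') := by
        show σ₀ (σ₀⁻¹ (τ (σ₀ a'))) = τ (σ₀ a')
        exact AlgEquiv.apply_symm_apply σ₀ _
      rw [hs, ← h2, h1]
    have hcase2 : ∀ τ ∈ K.fixingSubgroup, τ α = -α → τ a' = s ∧ τ s = a' := by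
      intro τ hτ hτα
      constructor
      · have h1 : σ₀⁻¹ * τ ∈ H := by
          rw [hmemH]
          refine ⟨K.fixingSubgroup.mul_mem (K.fixingSubgroup.inv_mem hσ₀K) hτ, ?_⟩
          show σ₀⁻¹ (τ α) = α
          rw [hτα, hσ₀invneg]
        have h2 : (σ₀⁻¹ * τ) a' = a' := ha' _ h1
        have h3 : σ₀ ((σ₀⁻¹ * τ) a') = τ a' := by
          show σ₀ (σ₀⁻¹ (τ a')) = τ a'
          exact AlgEquiv.apply_symm_apply σ₀ _
        rw [← h3, h2]
      · have h1 : τ * σ₀ ∈ H := by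
          rw [hmemH]
          refine ⟨K.fixingSubgroup.mul_mem hτ hσ₀K, ?_⟩
          show τ (σ₀ α) = α
          rw [hσ₀α, map_neg, hτα, neg_neg]
        exact ha' _ h1
    have hxK : (a' + s) / 2 ∈ K := by
      apply mem_of_fixed
      intro τ hτ
      rcases hpm τ hτ with h | h
      · obtain ⟨h1, h2⟩ := hcase1 τ ((hmemH τ).mpr ⟨hτ, h⟩)
        rw [map_div₀, map_add, h1, h2, map_ofNat]
      · obtain ⟨h1, h2⟩ := hcase2 τ hτ h
        rw [map_div₀, map_add, h1, h2, map_ofNat, add_comm]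
    have hyK : (a' - s) / (2 * α) ∈ K := by
      apply mem_of_fixed
      intro τ hτ
      rcases hpm τ hτ with h | h
      · obtain ⟨h1, h2⟩ := hcase1 τ ((hmemH τ).mpr ⟨hτ, h⟩)
        rw [map_div₀, map_sub, map_mul, h1, h2, h, map_ofNat]
      · obtain ⟨h1, h2⟩ := hcase2 τ hτ h
        rw [map_div₀, map_sub, map_mul, h1, h2, h, map_ofNat]
        field_simp
        ring
    obtain ⟨x, hxK, y, hyK, hsum, hdiff⟩ : ∃ x ∈ K, ∃ y ∈ K, a' = x + y * α ∧
        s - a' = -2 * (y * α) :=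
      ⟨_, hxK, _, hyK, by field_simp; ring, by field_simp; ring⟩
    rw [mem_zbarCenter]
    show s - a' ∈ A.nonunits
    rw [ValuationSubring.mem_nonunits_iff, hdiff]
    by_cases hy0 : y = 0
    · rw [hy0]; simp
    have hne : A.valuation x ≠ A.valuation (y * α) := by
      intro heq
      apply hodd (x / y) (K.div_mem hxK hyK)
      have e : α ^ 2 = (y * α) ^ 2 / y ^ 2 := by field_simp
      rw [e, map_div₀, map_pow, map_pow, ← heq, map_div₀, div_pow]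
    have hle : A.valuation a' ≤ 1 :=
      (A.valuation_le_one_iff a').mpr (mem_of_isIntegral A a.2)
    have hmax : A.valuation a' = max (A.valuation x) (A.valuation (y * α)) := by
      rw [hsum]
      exact Valuation.map_add_of_distinct_val _ hne
    have hle' : A.valuation (y * α) ≤ 1 := by
      rw [hmax] at hle
      exact (le_max_right _ _).trans hle
    have hne1 : A.valuation (y * α) ≠ 1 := by
      intro heq
      apply hodd y⁻¹ (K.inv_mem hyK)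
      have e : α ^ 2 = (y * α) ^ 2 / y ^ 2 := by field_simp
      rw [e, map_div₀, map_pow, map_pow, heq, map_inv₀, inv_pow, one_pow, one_div]
    have hlt : A.valuation (y * α) < 1 := lt_of_le_of_ne hle' hne1
    have h2 : A.valuation (-2 : Qbar) ≤ 1 := by
      rw [A.valuation_le_one_iff]
      have h3 := intCast_mem_valuationSubring A (-2)
      simpa using h3
    rw [map_mul]
    calc A.valuation (-2 : Qbar) * A.valuation (y * α) ≤ 1 * A.valuation (y * α) := by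
          gcongr
      _ < 1 := by rwa [one_mul]
  obtain ⟨h, hh, hQ, hb⟩ := exists_lift' H hHcl (zbarCenter A) σ₀ hn hn' h0
  rw [hmemH] at hh
  refine ⟨h * σ₀, Minkowski.mem_inertia A (h * σ₀) hQ hb, K.fixingSubgroup.mul_mem hh.1 hσ₀K, ?_⟩
  show h (σ₀ α) = -α
  rw [hσ₀α, map_neg, hh.2]

end Fermat.Agent.S17.H
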