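/-
S17 / Part H1, piece A: pure group theory.  If all "halves" of invariant elements are fixed by one
finite-index subgroup `U`, then `J^G / 2 J^G` is finite.
-/
import Mathlib

set_option autoImplicit false

namespace Fermat.Agent.S17.H

theorem finiteIndex_of_fixed {G J : Type*} [Group G] [AddCommGroup J] [DistribMulAction G J]
    (h2fin : {y : J | 2 • y = 0}.Finite)
    (hdiv : ∀ x : J, (∀ σ : G, σ • x = x) → ∃ y : J, 2 • y = x)
    (U : Subgroup G) [U.FiniteIndex]
    (hU : ∀ y : J, (∀ σ : G, σ • (2 • y) = 2 • y) → ∀ σ ∈ U, σ • y = y) :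
    (nsmulAddMonoidHom (α := FixedPoints.addSubgroup G J) 2).range.FiniteIndex := by
  classical
  have hfix : ∀ x : FixedPoints.addSubgroup G J, ∀ σ : G, σ • (x : J) = x := fun x σ => x.2 σ
  have hex : ∀ x : FixedPoints.addSubgroup G J, ∃ y : J, 2 • y = (x : J) :=
    fun x => hdiv x (hfix x)
  choose y hy using hex
  have hfin2 : Finite {z : J | 2 • z = 0} := h2fin
  have hfinQ : Finite (G ⧸ U) := Subgroup.finite_quotient_of_finiteIndex
  have hc : ∀ (x : FixedPoints.addSubgroup G J) (σ : G), 2 • (σ • y x - y x) = 0 := by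
    intro x σ
    rw [smul_sub, ← smul_comm σ 2 (y x), hy, hfix, sub_self]
  let F : FixedPoints.addSubgroup G J → (G ⧸ U → {z : J | 2 • z = 0}) :=
    fun x q => ⟨q.out • y x - y x, hc x _⟩
  have hout : ∀ (x : FixedPoints.addSubgroup G J) (σ : G),
      σ • y x = (QuotientGroup.mk σ : G ⧸ U).out • y x := by
    intro x σ
    have h1 : (QuotientGroup.mk ((QuotientGroup.mk σ : G ⧸ U).out) : G ⧸ U) = QuotientGroup.mk σ :=
      QuotientGroup.out_eq' _
    rw [QuotientGroup.eq] at h1
    have h2 := hU (y x) (fun τ => by rw [hy, hfix]) _ h1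
    rw [mul_smul, inv_smul_eq_iff] at h2
    exact h2
  have hF : ∀ x x' : FixedPoints.addSubgroup G J, F x = F x' →
      -x + x' ∈ (nsmulAddMonoidHom (α := FixedPoints.addSubgroup G J) 2).range := by
    intro x x' h
    have h1 : ∀ σ : G, σ • y x - y x = σ • y x' - y x' := by
      intro σ
      have h2 := congrArg Subtype.val (congrFun h (QuotientGroup.mk σ))
      rw [hout x σ, hout x' σ]
      exact h2
    have h3 : ∀ σ : G, σ • (y x' - y x) = y x' - y x := by
      intro σ
      rw [smul_sub]
      have := h1 σ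
      rw [sub_eq_sub_iff_add_eq_add] at this ⊢
      rw [← this, add_comm]
    refine ⟨⟨y x' - y x, h3⟩, ?_⟩
    apply Subtype.ext
    show 2 • (y x' - y x) = -(x : J) + x'
    rw [smul_sub, hy, hy]
    abel
  have hinj : Function.Injective (fun q : FixedPoints.addSubgroup G J ⧸
      (nsmulAddMonoidHom (α := FixedPoints.addSubgroup G J) 2).range => F q.out) := by
    intro q q' h
    have h1 := hF _ _ h
    rw [← QuotientAddGroup.eq, QuotientAddGroup.out_eq', QuotientAddGroup.out_eq'] at h1
    exact h1
  have hfin : Finite (FixedPoints.addSubgroup G J ⧸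
      (nsmulAddMonoidHom (α := FixedPoints.addSubgroup G J) 2).range) := Finite.of_injective _ hinj
  exact AddSubgroup.finiteIndex_of_finite_quotient

end Fermat.Agent.S17.H
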