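/-
S17 / Part H1, piece D: comparison of the `P`-adic valuation of a number field `K ⊆ Qbar` with the
valuation of a valuation subring of `Qbar` centred over `P`.
-/
import Mathlib
import Fermat.Agent.S14.BR.Inertia

set_option autoImplicit false

namespace Fermat.Agent.S17.H

open Fermat.Agent.S54 Fermat.Agent.S14.BR NumberField IsDedekindDomain

attribute [local instance] isAlgClosure_Qbar

local notation "Qbar" => AlgebraicClosure ℚ

/-- the two valuations have the same units among the integers -/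
theorem valuation_eq_one_iff_int (K : IntermediateField ℚ Qbar) [NumberField K]
    (v : HeightOneSpectrum (𝓞 K)) (A : ValuationSubring Qbar)
    (hA : (zbarCenter A).comap (iotaZ K) = v.asIdeal) (r : 𝓞 K) :
    v.valuation K (algebraMap (𝓞 K) K r) = 1 ↔ A.valuation (((r : K) : Qbar)) = 1 := by
  rw [HeightOneSpectrum.valuation_eq_one_iff_notMem, ← hA, Ideal.mem_comap, mem_zbarCenter,
    coe_iotaZ, ValuationSubring.mem_nonunits_iff, not_lt]
  have hle : A.valuation (((r : K) : Qbar)) ≤ 1 :=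
    (A.valuation_le_one_iff _).mpr (mem_of_isIntegral A (iotaZ K r).2)
  exact ⟨fun h => le_antisymm hle h, fun h => h.ge⟩

/-- the two valuations have the same units -/
theorem valuation_eq_one_iff (K : IntermediateField ℚ Qbar) [NumberField K]
    (v : HeightOneSpectrum (𝓞 K)) (A : ValuationSubring Qbar)
    (hA : (zbarCenter A).comap (iotaZ K) = v.asIdeal) (x : K) :
    v.valuation K x = 1 ↔ A.valuation (x : Qbar) = 1 := by
  obtain ⟨n, d, h | h⟩ := HeightOneSpectrum.exists_primeCompl_mul_eq_or_mul_eq v x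
  · have hd : v.valuation K (algebraMap (𝓞 K) K d) = 1 :=
      (HeightOneSpectrum.valuation_eq_one_iff_notMem (v := v)).mpr d.2
    have hd' := (valuation_eq_one_iff_int K v A hA d).mp hd
    have h1 := congrArg (v.valuation K) h
    rw [map_mul, hd, mul_one] at h1
    have h2 : (x : Qbar) * (((d : 𝓞 K) : K) : Qbar) = ((n : K) : Qbar) :=
      congrArg Subtype.val h
    have h3 := congrArg A.valuation h2
    rw [map_mul, hd', mul_one] at h3
    rw [h1, h3]
    exact valuation_eq_one_iff_int K v A hA n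
  · have hd : v.valuation K (algebraMap (𝓞 K) K d) = 1 :=
      (HeightOneSpectrum.valuation_eq_one_iff_notMem (v := v)).mpr d.2
    have hd' := (valuation_eq_one_iff_int K v A hA d).mp hd
    have h1 := congrArg (v.valuation K) h
    rw [map_mul, hd] at h1
    have h2 : (x : Qbar) * ((n : K) : Qbar) = (((d : 𝓞 K) : K) : Qbar) :=
      congrArg Subtype.val h
    have h3 := congrArg A.valuation h2
    rw [map_mul, hd'] at h3
    have hn := valuation_eq_one_iff_int K v A hA n
    constructor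
    · intro hx
      rw [hx, one_mul] at h1
      rw [hn.mp h1, mul_one] at h3
      exact h3
    · intro hx
      rw [hx, one_mul] at h3
      rw [hn.mpr h3, mul_one] at h1
      exact h1

/-- the primes of `K` over a finite set of rational primes -/
theorem finite_primes_over (K : IntermediateField ℚ Qbar) [NumberField K] (S : Finset ℕ) :
    {v : HeightOneSpectrum (𝓞 K) | ∃ p ∈ S, p.Prime ∧ ((p : ℕ) : 𝓞 K) ∈ v.asIdeal}.Finite := by
  have h1 : {v : HeightOneSpectrum (𝓞 K) | ∃ p ∈ S, p.Prime ∧ ((p : ℕ) : 𝓞 K) ∈ v.asIdeal} =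
      ⋃ p ∈ S, {v : HeightOneSpectrum (𝓞 K) | p.Prime ∧ ((p : ℕ) : 𝓞 K) ∈ v.asIdeal} := by
    ext v
    simp only [Set.mem_setOf_eq, Set.mem_iUnion, exists_prop]
  rw [h1]
  refine Set.Finite.biUnion S.finite_toSet (fun p _ => ?_)
  by_cases hp : p.Prime
  · have h0 : Ideal.span {((p : ℕ) : 𝓞 K)} ≠ 0 := by
      rw [Ne, Ideal.zero_eq_bot, Ideal.span_singleton_eq_bot]
      exact_mod_cast hp.ne_zero
    refine (Ideal.finite_factors h0).subset ?_
    rintro v ⟨-, hv⟩
    show v.asIdeal ∣ _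
    rw [Ideal.dvd_span_singleton]
    exact hv
  · convert Set.finite_empty
    ext v
    simp [hp]

/-- What the assembly uses. -/
theorem valuation_isSquare_of (K : IntermediateField ℚ Qbar) [NumberField K] (S : Finset ℕ)
    (a : K)
    (h : ∀ p : ℕ, p.Prime → p ∉ S → ∀ A : ValuationSubring Qbar, A.LiesOverPrime p →
      ∃ y ∈ K, A.valuation (a : Qbar) = A.valuation y ^ 2)
    (v : HeightOneSpectrum (𝓞 K))
    (hv : v ∉ {v : HeightOneSpectrum (𝓞 K) | ∃ p ∈ S, p.Prime ∧ ((p : ℕ) : 𝓞 K) ∈ v.asIdeal}) :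
    ∃ y : K, v.valuation K a = v.valuation K y ^ 2 := by
  by_cases ha : a = 0
  · exact ⟨0, by simp [ha]⟩
  obtain ⟨A, ℓ, hℓ, hA, hcomap⟩ := exists_valuationSubring_over K v.asIdeal v.isPrime v.ne_bot
  have hℓS : ℓ ∉ S := by
    intro hmem
    apply hv
    refine ⟨ℓ, hmem, hℓ, ?_⟩
    rw [← hcomap, Ideal.mem_comap, mem_zbarCenter, map_natCast]
    have h1 : (ℓ : Qbar) ∈ A.nonunits := hA
    simpa using h1
  obtain ⟨y, hyK, hy⟩ := h ℓ hℓ hℓS A hA
  have ha' : (a : Qbar) ≠ 0 := fun h0 => ha (Subtype.ext h0)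
  have hy0 : y ≠ 0 := by
    rintro rfl
    rw [map_zero, zero_pow two_ne_zero, map_eq_zero] at hy
    exact ha' hy
  let y' : K := ⟨y, hyK⟩
  have hy'0 : y' ≠ 0 := fun h0 => hy0 (congrArg Subtype.val h0)
  refine ⟨y', ?_⟩
  have h1 : A.valuation ((a / y' ^ 2 : K) : Qbar) = 1 := by
    have h2 : ((a / y' ^ 2 : K) : Qbar) = (a : Qbar) / y ^ 2 := rfl
    rw [h2, map_div₀, map_pow, hy]
    exact div_self (pow_ne_zero 2 ((map_ne_zero _).mpr hy0))
  have h3 := (valuation_eq_one_iff K v A hcomap _).mpr h1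
  rw [map_div₀, map_pow] at h3
  exact (div_eq_one_iff_eq (pow_ne_zero 2 ((map_ne_zero _).mpr hy'0))).mp h3

end Fermat.Agent.S17.H
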