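/-
S17 / Part H1, piece E: finiteness of the Selmer group `K(S,2)` of a number field, in elementwise
form (class group finite + units finitely generated).  Pure Mathlib.
-/
import Mathlib

set_option autoImplicit false

namespace Fermat.Agent.S17.H

open NumberField IsDedekindDomain
open scoped nonZeroDivisors

section Dedekind

variable {O : Type*} [CommRing O] [IsDedekindDomain O]

/-- every nonzero ideal is a square times a squarefree product of primes -/
theorem exists_sq_mul_prod (I : Ideal O) (hI : I ≠ 0) :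
    ∃ (J : Ideal O) (s : Finset (HeightOneSpectrum O)), J ≠ 0 ∧
      I = J ^ 2 * ∏ v ∈ s, v.asIdeal := by
  classical
  revert hI
  refine UniqueFactorizationMonoid.induction_on_prime I ?_ ?_ ?_
  · intro h; exact absurd rfl h
  · intro x hx _
    refine ⟨1, ∅, one_ne_zero, ?_⟩
    rw [Ideal.isUnit_iff] at hx
    rw [hx, ← Ideal.one_eq_top, one_pow, Finset.prod_empty, one_mul]
  · intro a p ha hp ih _
    obtain ⟨J, s, hJ, hJs⟩ := ih ha
    let w : HeightOneSpectrum O := ⟨p, Ideal.isPrime_of_prime hp, hp.ne_zero⟩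
    by_cases hw : w ∈ s
    · refine ⟨p * J, s.erase w, mul_ne_zero hp.ne_zero hJ, ?_⟩
      rw [hJs, ← Finset.mul_prod_erase s _ hw]
      show p * (J ^ 2 * (p * _)) = _
      ring
    · refine ⟨J, insert w s, hJ, ?_⟩
      rw [hJs, Finset.prod_insert hw]
      show p * (J ^ 2 * _) = J ^ 2 * (p * _)
      ring

theorem emultiplicity_prod_asIdeal (s : Finset (HeightOneSpectrum O)) (w : HeightOneSpectrum O)
    (hw : w ∈ s) : emultiplicity w.asIdeal (∏ v ∈ s, v.asIdeal) = 1 := by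
  classical
  rw [Finset.emultiplicity_prod w.prime, Finset.sum_eq_single w]
  · exact (FiniteMultiplicity.of_prime_left w.prime w.ne_bot).emultiplicity_self
  · intro v _ hv
    rw [emultiplicity_eq_zero, Ideal.dvd_iff_le]
    intro hle
    apply hv
    exact HeightOneSpectrum.ext (v.isMaximal.eq_of_le w.isPrime.ne_top hle)
  · intro h; exact absurd hw h

variable (K : Type*) [Field K] [Algebra O K] [IsFractionRing O K]

/-- the valuation at a prime of the squarefree part is not a square -/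
theorem valuation_ne_sq (a : O) (ha : a ≠ 0) (J : Ideal O) (hJ : J ≠ 0)
    (s : Finset (HeightOneSpectrum O)) (h : Ideal.span {a} = J ^ 2 * ∏ v ∈ s, v.asIdeal)
    (w : HeightOneSpectrum O) (hw : w ∈ s) (y : K) :
    w.valuation K (algebraMap O K a) ≠ w.valuation K y ^ 2 := by
  intro heq
  have hfin : FiniteMultiplicity w.asIdeal J := FiniteMultiplicity.of_prime_left w.prime hJ
  have h1 : emultiplicity w.asIdeal (Ideal.span {a}) =
      ((2 * multiplicity w.asIdeal J + 1 : ℕ) : ℕ∞) := by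
    rw [h, emultiplicity_mul w.prime, emultiplicity_pow w.prime, emultiplicity_prod_asIdeal s w hw,
      hfin.emultiplicity_eq_multiplicity]
    norm_cast
  have h2 := multiplicity_eq_of_emultiplicity_eq_some h1
  rw [HeightOneSpectrum.valuation_of_algebraMap,
    HeightOneSpectrum.intValuation_eq_exp_neg_multiplicity w ha, h2] at heq
  have hy : w.valuation K y ≠ 0 := by
    intro h0
    rw [h0, zero_pow two_ne_zero] at heq
    exact WithZero.exp_ne_zero heq
  rw [← WithZero.exp_log hy, ← WithZero.exp_nsmul, WithZero.exp_inj] at heq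
  simp only [nsmul_eq_mul] at heq
  push_cast at heq
  omega

/-- two elements with the same squarefree part and the same class differ by a unit and a square -/
theorem exists_unit_of_same_type (a a' : O) (J J' : (Ideal O)⁰)
    (hc : ClassGroup.mk0 J = ClassGroup.mk0 J') (T : Ideal O)
    (h : Ideal.span {a} = (J : Ideal O) ^ 2 * T) (h' : Ideal.span {a'} = (J' : Ideal O) ^ 2 * T) :
    ∃ (u : Oˣ) (x y : O), x ≠ 0 ∧ y ≠ 0 ∧ x ^ 2 * a = u * (y ^ 2 * a') := by
  obtain ⟨x, y, hx, hy, hxy⟩ := ClassGroup.mk0_eq_mk0_iff.mp hc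
  have h1 : Ideal.span {x ^ 2 * a} = Ideal.span {y ^ 2 * a'} := by
    rw [← Ideal.span_singleton_mul_span_singleton, ← Ideal.span_singleton_mul_span_singleton,
      ← Ideal.span_singleton_pow, ← Ideal.span_singleton_pow, h, h', ← mul_assoc, ← mul_assoc,
      ← mul_pow, ← mul_pow, hxy]
  rw [Ideal.span_singleton_eq_span_singleton] at h1
  obtain ⟨u, hu⟩ := h1.symm
  exact ⟨u, x, y, hx, hy, by rw [← hu]; ring⟩

end Dedekind

theorem finite_units_mod_sq (K : Type*) [Field K] [NumberField K] :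
    Finite ((𝓞 K)ˣ ⧸ (powMonoidHom 2 : (𝓞 K)ˣ →* (𝓞 K)ˣ).range) := by
  have : Group.FG (𝓞 K)ˣ := Group.fg_iff_monoid_fg.mpr inferInstance
  apply CommGroup.finite_of_fg_isMulTorsion
  intro q
  obtain ⟨u, rfl⟩ := QuotientGroup.mk_surjective q
  rw [isOfFinOrder_iff_pow_eq_one]
  refine ⟨2, by norm_num, ?_⟩
  rw [← QuotientGroup.mk_pow, QuotientGroup.eq_one_iff]
  exact ⟨u, rfl⟩

theorem finite_selmer_two (K : Type*) [Field K] [NumberField K]
    (S : Set (HeightOneSpectrum (𝓞 K))) (hS : S.Finite) :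
    ∃ R : Finset K, (∀ r ∈ R, r ≠ 0) ∧ ∀ a : K, a ≠ 0 →
      (∀ v : HeightOneSpectrum (𝓞 K), v ∉ S → ∃ y : K, v.valuation K a = v.valuation K y ^ 2) →
      ∃ r ∈ R, ∃ b : K, b ≠ 0 ∧ a = r * b ^ 2 := by
  classical
  have hfinU := finite_units_mod_sq K
  let _ : Fintype ((𝓞 K)ˣ ⧸ (powMonoidHom 2 : (𝓞 K)ˣ →* (𝓞 K)ˣ).range) := Fintype.ofFinite _
  let D : 𝓞 K → Finset (HeightOneSpectrum (𝓞 K)) → ClassGroup (𝓞 K) → Prop := fun a s c =>
    a ≠ 0 ∧ ∃ J : (Ideal (𝓞 K))⁰, ClassGroup.mk0 J = c ∧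
      Ideal.span {a} = (J : Ideal (𝓞 K)) ^ 2 * ∏ v ∈ s, v.asIdeal
  let rep : Finset (HeightOneSpectrum (𝓞 K)) × ClassGroup (𝓞 K) → 𝓞 K := fun sc =>
    if h : ∃ a, D a sc.1 sc.2 then h.choose else 1
  have hrep : ∀ sc, (∃ a, D a sc.1 sc.2) → D (rep sc) sc.1 sc.2 := by
    intro sc h
    simp only [rep, dif_pos h]
    exact h.choose_spec
  have hrep0 : ∀ sc, rep sc ≠ 0 := by
    intro sc
    by_cases h : ∃ a, D a sc.1 sc.2
    · exact (hrep sc h).1
    · simp only [rep, dif_neg h]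
      exact one_ne_zero
  let R : Finset K := ((hS.toFinset.powerset ×ˢ (Finset.univ : Finset (ClassGroup (𝓞 K)))) ×ˢ
      (Finset.univ : Finset ((𝓞 K)ˣ ⧸ (powMonoidHom 2 : (𝓞 K)ˣ →* (𝓞 K)ˣ).range))).image
    (fun t => algebraMap (𝓞 K) K ((t.2.out : (𝓞 K)ˣ) : 𝓞 K) * algebraMap (𝓞 K) K (rep t.1))
  have hinj : Function.Injective (algebraMap (𝓞 K) K) := FaithfulSMul.algebraMap_injective _ _
  have hne : ∀ z : 𝓞 K, z ≠ 0 → algebraMap (𝓞 K) K z ≠ 0 := fun z hz =>
    (map_ne_zero_iff _ hinj).mpr hz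
  refine ⟨R, ?_, ?_⟩
  · intro r hr
    obtain ⟨t, -, rfl⟩ := Finset.mem_image.mp hr
    exact mul_ne_zero (hne _ (Units.ne_zero _)) (hne _ (hrep0 _))
  intro a ha hT
  obtain ⟨n, d, hd, rfl⟩ := IsFractionRing.div_surjective (A := 𝓞 K) a
  have hd0 : d ≠ 0 := nonZeroDivisors.ne_zero hd
  have hn0 : n ≠ 0 := by
    rintro rfl
    simp at ha
  have ha₁ : n * d ≠ 0 := mul_ne_zero hn0 hd0
  obtain ⟨J, s, hJ, hJs⟩ := exists_sq_mul_prod (Ideal.span {n * d}) (by
    rw [Ne, Ideal.zero_eq_bot, Ideal.span_singleton_eq_bot]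
    exact ha₁)
  have hsS : s ∈ hS.toFinset.powerset := by
    rw [Finset.mem_powerset]
    intro w hw
    rw [Set.Finite.mem_toFinset]
    by_contra hwS
    obtain ⟨y, hy⟩ := hT w hwS
    apply valuation_ne_sq K (n * d) ha₁ J hJ s hJs w hw (y * algebraMap (𝓞 K) K d)
    have e : algebraMap (𝓞 K) K (n * d) =
        algebraMap (𝓞 K) K n / algebraMap (𝓞 K) K d * algebraMap (𝓞 K) K d ^ 2 := by
      rw [map_mul]
      have := hne d hd0
      field_simp
    rw [e, map_mul, hy, map_pow, map_mul, mul_pow]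
  let J₀ : (Ideal (𝓞 K))⁰ := ⟨J, mem_nonZeroDivisors_iff_ne_zero.mpr hJ⟩
  have hD : D (n * d) s (ClassGroup.mk0 J₀) := ⟨ha₁, J₀, rfl, hJs⟩
  obtain ⟨-, J', hJ'c, hJ's⟩ := hrep (s, ClassGroup.mk0 J₀) ⟨_, hD⟩
  obtain ⟨u, x, y, hx, hy, hxy⟩ := exists_unit_of_same_type (n * d) (rep (s, ClassGroup.mk0 J₀))
    J₀ J' hJ'c.symm _ hJs hJ's
  -- the class of the unit
  let q : (𝓞 K)ˣ ⧸ (powMonoidHom 2 : (𝓞 K)ˣ →* (𝓞 K)ˣ).range := QuotientGroup.mk u
  obtain ⟨w, hw⟩ : ∃ w : (𝓞 K)ˣ, w ^ 2 = q.out⁻¹ * u := by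
    have h1 : (QuotientGroup.mk q.out : (𝓞 K)ˣ ⧸ (powMonoidHom 2 : (𝓞 K)ˣ →* (𝓞 K)ˣ).range) =
        QuotientGroup.mk u := QuotientGroup.out_eq' _
    rw [QuotientGroup.eq] at h1
    exact h1
  have hw' : algebraMap (𝓞 K) K ((q.out : (𝓞 K)ˣ) : 𝓞 K) * algebraMap (𝓞 K) K (w : 𝓞 K) ^ 2 =
      algebraMap (𝓞 K) K (u : 𝓞 K) := by
    have h1 : q.out * w ^ 2 = u := by rw [hw, mul_inv_cancel_left]
    rw [← h1]
    simp
  have hxy' := congrArg (algebraMap (𝓞 K) K) hxy
  simp only [map_mul, map_pow] at hxy'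
  refine ⟨_, Finset.mem_image.mpr ⟨((s, ClassGroup.mk0 J₀), q), ?_, rfl⟩,
    algebraMap (𝓞 K) K (w : 𝓞 K) * algebraMap (𝓞 K) K y /
      (algebraMap (𝓞 K) K x * algebraMap (𝓞 K) K d), ?_, ?_⟩
  · simp only [Finset.mem_product, Finset.mem_univ, and_true]
    exact hsS
  · exact div_ne_zero (mul_ne_zero (hne _ (Units.ne_zero _)) (hne _ hy))
      (mul_ne_zero (hne _ hx) (hne _ hd0))
  · have h1 := hne x hx
    have h2 := hne d hd0
    rw [← hw'] at hxy'
    field_simp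
    linear_combination hxy'

end Fermat.Agent.S17.H
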