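/-
S17 / Part H1: the abstract weak Mordell-Weil lemma.
-/
import Mathlib
import Fermat.Agent.S17.H.Cocycle
import Fermat.Agent.S17.H.Selmer
import Fermat.Agent.S17.H.Sqrt
import Fermat.Agent.S17.H.Ram
import Fermat.Agent.S17.H.Compare

set_option autoImplicit false

namespace Fermat.Agent.S17

open Fermat.Agent.S54 Fermat.Agent.S17.H

attribute [local instance] isAlgClosure_Qbar

local notation "Qbar" => AlgebraicClosure ℚ

namespace H

/-- open subgroups of `G_ℚ` of the form `G_M` have finite index -/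
theorem finiteIndex_fixingSubgroup (M : IntermediateField ℚ Qbar) [FiniteDimensional ℚ M] :
    M.fixingSubgroup.FiniteIndex := by
  have h1 : IsOpen (M.fixingSubgroup : Set GQ) := M.fixingSubgroup_isOpen
  have h2 : Finite (GQ ⧸ M.fixingSubgroup) := Subgroup.quotient_finite_of_isOpen _ h1
  exact Subgroup.finiteIndex_of_finite_quotient

/-- a number field whose absolute Galois group fixes a given finite set of elements -/
theorem exists_field_fixing {J : Type*} [AddCommGroup J] [DistribMulAction GQ J]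
    (hsmooth : ∀ y : J, ∃ L : IntermediateField ℚ Qbar, FiniteDimensional ℚ L ∧
      ∀ σ ∈ L.fixingSubgroup, σ • y = y) (T : Set J) (hT : T.Finite) :
    ∃ K : IntermediateField ℚ Qbar, FiniteDimensional ℚ K ∧
      ∀ σ ∈ K.fixingSubgroup, ∀ y ∈ T, σ • y = y := by
  choose L hL1 hL2 using hsmooth
  refine ⟨⨆ y ∈ hT.toFinset, L y,
    IntermediateField.finiteDimensional_iSup_of_finset' (fun y _ => hL1 y), ?_⟩
  intro σ hσ y hy
  apply hL2 y σ
  have hle : L y ≤ ⨆ y ∈ hT.toFinset, L y :=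
    le_iSup_of_le y (le_iSup (fun _ => L y) (hT.mem_toFinset.mpr hy))
  exact IntermediateField.fixingSubgroup_antitone hle hσ

theorem zmod_two_eq_one {a : ZMod 2} (h : a ≠ 0) : a = 1 := by
  revert a; decide

end H

/-- **Abstract weak Mordell-Weil.** -/
theorem weakMW {J : Type*} [AddCommGroup J]
    [DistribMulAction (AlgebraicClosure ℚ ≃ₐ[ℚ] AlgebraicClosure ℚ) J]
    (h2fin : {y : J | 2 • y = 0}.Finite)
    (hdiv : ∀ x : J, (∀ σ : AlgebraicClosure ℚ ≃ₐ[ℚ] AlgebraicClosure ℚ, σ • x = x) →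
      ∃ y : J, 2 • y = x)
    (hsmooth : ∀ y : J, ∃ L : IntermediateField ℚ (AlgebraicClosure ℚ), FiniteDimensional ℚ L ∧
      ∀ σ ∈ L.fixingSubgroup, σ • y = y)
    (S : Finset ℕ)
    (hunr : ∀ p : ℕ, p.Prime → p ∉ S → ∀ A : ValuationSubring (AlgebraicClosure ℚ),
      A.LiesOverPrime p → ∀ σ ∈ A.inertiaSubgroupIn ℚ, ∀ y : J,
        2 • (σ • y - y) = 0 → σ • y = y) :
    (nsmulAddMonoidHom
      (α := FixedPoints.addSubgroup (AlgebraicClosure ℚ ≃ₐ[ℚ] AlgebraicClosure ℚ) J) 2).range.FiniteIndex := by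
  classical
  obtain ⟨K, hKfd, hK⟩ := exists_field_fixing hsmooth _ h2fin
  have hnf : NumberField K := { to_charZero := inferInstance, to_finiteDimensional := hKfd }
  obtain ⟨R, hR0, hR⟩ := finite_selmer_two K _ (finite_primes_over K S)
  -- square roots of the representatives
  have hroot : ∀ r : K, ∃ ρ : Qbar, ρ ^ 2 = (r : Qbar) := fun r =>
    IsAlgClosed.exists_pow_nat_eq _ (by norm_num)
  choose ρ hρ using hroot
  let M : IntermediateField ℚ Qbar := K ⊔ IntermediateField.adjoin ℚ ((R.image ρ : Finset Qbar) : Set Qbar)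
  have hMfd : FiniteDimensional ℚ M := by
    have h1 : FiniteDimensional ℚ
        (IntermediateField.adjoin ℚ ((R.image ρ : Finset Qbar) : Set Qbar)) :=
      IntermediateField.finiteDimensional_adjoin (fun x _ =>
        (Algebra.IsIntegral.isIntegral x))
    exact IntermediateField.finiteDimensional_sup _ _
  have hMK : M.fixingSubgroup ≤ K.fixingSubgroup :=
    IntermediateField.fixingSubgroup_antitone le_sup_left
  have hMρ : ∀ σ ∈ M.fixingSubgroup, ∀ r ∈ R, σ (ρ r) = ρ r := by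
    intro σ hσ r hr
    apply apply_of_mem_fixingSubgroup M hσ
    apply (le_sup_right : _ ≤ M)
    apply IntermediateField.subset_adjoin
    exact Finset.mem_coe.mpr (Finset.mem_image_of_mem ρ hr)
  have hfi : M.fixingSubgroup.FiniteIndex := finiteIndex_fixingSubgroup M
  refine finiteIndex_of_fixed h2fin hdiv M.fixingSubgroup ?_
  intro y hy σ hσM
  by_contra hne
  have hσK : σ ∈ K.fixingSubgroup := hMK hσM
  -- the cocycle
  let V : AddSubgroup J := (nsmulAddMonoidHom (α := J) 2).ker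
  have hmemV : ∀ z : J, z ∈ V ↔ 2 • z = 0 := fun z => Iff.rfl
  have hcV : ∀ τ : GQ, τ • y - y ∈ V := by
    intro τ
    rw [hmemV, smul_sub, ← smul_comm τ 2 y, hy τ, sub_self]
  let c : GQ → V := fun τ => ⟨τ • y - y, hcV τ⟩
  have hcmul : ∀ τ₁ ∈ K.fixingSubgroup, ∀ τ₂ : GQ, c (τ₁ * τ₂) = c τ₁ + c τ₂ := by
    intro τ₁ h₁ τ₂
    apply Subtype.ext
    show (τ₁ * τ₂) • y - y = (τ₁ • y - y) + (τ₂ • y - y)
    have h3 : τ₁ • (τ₂ • y - y) = τ₂ • y - y := hK τ₁ h₁ _ (hcV τ₂)
    rw [smul_sub] at h3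
    rw [mul_smul]
    have h4 : τ₁ • τ₂ • y = τ₂ • y - y + τ₁ • y := by rw [← h3]; abel
    rw [h4]; abel
  let _ : Module (ZMod 2) V := AddCommGroup.zmodModule (n := 2) (fun x => by
    apply Subtype.ext
    exact x.2)
  have hcσ : c σ ≠ 0 := by
    intro h
    apply hne
    have h1 := congrArg Subtype.val h
    exact sub_eq_zero.mp h1
  obtain ⟨f, hf⟩ : ∃ f : Module.Dual (ZMod 2) V, f (c σ) ≠ 0 := by
    by_contra hcon
    push Not at hcon
    exact hcσ ((Module.forall_dual_apply_eq_zero_iff (ZMod 2) (c σ)).mp hcon)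
  have hφmul : ∀ τ₁ ∈ K.fixingSubgroup, ∀ τ₂ : GQ, f (c (τ₁ * τ₂)) = f (c τ₁) + f (c τ₂) := by
    intro τ₁ h₁ τ₂
    rw [hcmul τ₁ h₁ τ₂, map_add]
  have hc1 : c 1 = 0 := by
    apply Subtype.ext
    show (1 : GQ) • y - y = 0
    rw [one_smul, sub_self]
  have hφinv : ∀ τ ∈ K.fixingSubgroup, f (c τ⁻¹) = f (c τ) := by
    intro τ hτ
    have h1 := hφmul τ hτ τ⁻¹
    rw [mul_inv_cancel, hc1, map_zero] at h1
    have h2 : ∀ a b : ZMod 2, 0 = a + b → b = a := by decide
    exact h2 _ _ h1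
  let H : Subgroup GQ :=
    { carrier := {τ | τ ∈ K.fixingSubgroup ∧ f (c τ) = 0}
      mul_mem' := by
        rintro a b ⟨ha, ha'⟩ ⟨hb, hb'⟩
        exact ⟨K.fixingSubgroup.mul_mem ha hb, by rw [hφmul a ha b, ha', hb', add_zero]⟩
      one_mem' := ⟨K.fixingSubgroup.one_mem, by rw [hc1, map_zero]⟩
      inv_mem' := by
        rintro a ⟨ha, ha'⟩
        exact ⟨K.fixingSubgroup.inv_mem ha, by rw [hφinv a ha, ha']⟩ }
  have hmemH : ∀ τ : GQ, τ ∈ H ↔ τ ∈ K.fixingSubgroup ∧ f (c τ) = 0 := fun τ => Iff.rfl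
  have hHcl : IsClosed (H : Set GQ) := by
    obtain ⟨L, hLfd, hL⟩ := hsmooth y
    have h1 : (K ⊔ L).fixingSubgroup ≤ H := by
      intro τ hτ
      refine ⟨IntermediateField.fixingSubgroup_antitone le_sup_left hτ, ?_⟩
      have h2 : τ • y = y := hL τ (IntermediateField.fixingSubgroup_antitone le_sup_right hτ)
      have h3 : c τ = 0 := by
        apply Subtype.ext
        show τ • y - y = 0
        rw [h2, sub_self]
      rw [h3, map_zero]
    have h4 : FiniteDimensional ℚ (K ⊔ L : IntermediateField ℚ Qbar) :=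
      IntermediateField.finiteDimensional_sup _ _
    exact H.isClosed_of_isOpen (Subgroup.isOpen_mono h1 (K ⊔ L).fixingSubgroup_isOpen)
  have hσH : σ ∉ H := fun h => hf h.2
  have hidx : ∀ τ ∈ K.fixingSubgroup, τ ∉ H → σ⁻¹ * τ ∈ H := by
    intro τ hτ hτH
    refine ⟨K.fixingSubgroup.mul_mem (K.fixingSubgroup.inv_mem hσK) hτ, ?_⟩
    have h1 : f (c τ) ≠ 0 := fun h => hτH ⟨hτ, h⟩
    rw [hφmul _ (K.fixingSubgroup.inv_mem hσK), hφinv σ hσK, zmod_two_eq_one h1,
      zmod_two_eq_one hf]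
    decide
  obtain ⟨α, hα0, hαK, hσα, hHα⟩ := exists_sqrt K H hHcl σ hσK hσH hidx
  have hneg : -α ≠ α := by
    intro h
    apply hα0
    have h1 : (2 : Qbar) * α = 0 := by linear_combination -h
    rcases mul_eq_zero.mp h1 with h2 | h2
    · norm_num at h2
    · exact h2
  -- the class of `α²` is in the Selmer group
  let a : K := ⟨α ^ 2, hαK⟩
  have ha0 : a ≠ 0 := by
    intro h
    have h1 := congrArg Subtype.val h
    exact pow_ne_zero 2 hα0 h1
  have hloc : ∀ p : ℕ, p.Prime → p ∉ S → ∀ A : ValuationSubring Qbar, A.LiesOverPrime p →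
      ∃ y' ∈ K, A.valuation (a : Qbar) = A.valuation y' ^ 2 := by
    intro p hp hpS A hA
    by_contra hcon
    push Not at hcon
    obtain ⟨τ, hτI, hτK, hτα⟩ := exists_inertia_moving_sqrt K A α hα0 hαK hcon
    have h1 : τ • y = y := hunr p hp hpS A hA τ hτI y (hcV τ)
    have h2 : c τ = 0 := by
      apply Subtype.ext
      show τ • y - y = 0
      rw [h1, sub_self]
    have h3 : τ ∈ H := ⟨hτK, by rw [h2, map_zero]⟩
    exact hneg (by rw [← hτα, hHα τ h3 hτK])
  obtain ⟨r, hr, b, hb0, hab⟩ := hR a ha0 (fun v hv => valuation_isSquare_of K S a hloc v hv)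
  have h1 : α ^ 2 = (ρ r * (b : Qbar)) ^ 2 := by
    have h2 := congrArg Subtype.val hab
    rw [mul_pow, hρ]
    exact h2
  have hσρ : σ (ρ r * (b : Qbar)) = ρ r * (b : Qbar) := by
    rw [map_mul, hMρ σ hσM r hr, apply_of_mem_fixingSubgroup K hσK b.2]
  rcases sq_eq_sq_iff_eq_or_eq_neg.mp h1 with h3 | h3
  · apply hneg
    rw [← hσα, h3, hσρ]
  · apply hneg
    rw [← hσα, h3, map_neg, hσρ]

end Fermat.Agent.S17
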